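import Fermat.Agent.H92.MW.CoreInterfaces

/-!
# P-MW row MW-BIHOM (helper99): heights and bihomogeneous base-point-free systems

`bihom : Fermat.Agent.H92.MW.BihomStatement`:
for a system `Φ` of bihomogeneous polynomials of bidegree `(d₁, d₂)` over `ℚ` without
nontrivial common zero over `ℚ̄`,  `h(Φ(x, y)) = d₁ h(x) + d₂ h(y) + O(1)` on rational points.
-/

set_option autoImplicit false

noncomputable section

open MvPolynomial

namespace Fermat.Agent.H99.MW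

open Fermat.Agent.H92.MW

/-! ### A section of the monomial map -/

/-- Every monomial of degree `e` is a product of `e` variables. -/
theorem exists_fin_prod_eq {ι : Type} [Fintype ι] (e : ℕ) (s : ι → ℕ) (hs : ∑ i, s i = e) :
    ∃ a : Fin e → ι, ∀ (M : Type) [CommMonoid M] (x : ι → M),
      ∏ r, x (a r) = ∏ i, x i ^ s i := by
  classical
  induction e generalizing s with
  | zero =>
    refine ⟨Fin.elim0, fun M _ x => ?_⟩
    have h0 : ∀ i, s i = 0 := fun i =>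
      (Finset.sum_eq_zero_iff.mp hs) i (Finset.mem_univ i)
    simp [h0]
  | succ e ih =>
    have hex : ∃ i₀, s i₀ ≠ 0 := by
      by_contra hcon
      push Not at hcon
      have : ∑ i, s i = 0 := Finset.sum_eq_zero fun i _ => hcon i
      omega
    obtain ⟨i₀, hi₀⟩ := hex
    have hsplit : ∀ i, s i = Function.update s i₀ (s i₀ - 1) i + (if i = i₀ then 1 else 0) := by
      intro i
      by_cases h : i = i₀
      · subst h
        simp only [Function.update_self, if_true]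
        omega
      · simp [h]
    have hsum : ∑ i, Function.update s i₀ (s i₀ - 1) i = e := by
      have h1 : ∑ i, s i
          = ∑ i, Function.update s i₀ (s i₀ - 1) i + ∑ i, (if i = i₀ then 1 else 0) := by
        rw [← Finset.sum_add_distrib]
        exact Finset.sum_congr rfl fun i _ => hsplit i
      rw [Finset.sum_ite_eq' Finset.univ i₀ (fun _ => 1), if_pos (Finset.mem_univ _)] at h1
      omega
    obtain ⟨a', ha'⟩ := ih _ hsum
    refine ⟨Fin.cons i₀ a', fun M _ x => ?_⟩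
    rw [Fin.prod_univ_succ, Fin.cons_zero]
    simp only [Fin.cons_succ]
    rw [ha' M x]
    have h2 : ∀ i, x i ^ s i
        = x i ^ Function.update s i₀ (s i₀ - 1) i * (if i = i₀ then x i else 1) := by
      intro i
      conv_lhs => rw [hsplit i, pow_add]
      by_cases h : i = i₀
      · simp [h]
      · simp [h]
    rw [Finset.prod_congr rfl fun i _ => h2 i, Finset.prod_mul_distrib,
      Finset.prod_ite_eq' Finset.univ i₀ (fun i => x i), if_pos (Finset.mem_univ _), mul_comm]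


/-! ### The tensor vector and the upper bound -/

section upper

variable {ι₁ ι₂ : Type} [Fintype ι₁] [Fintype ι₂]

/-- The vector of all products of `e₁` coordinates of `x` and `e₂` coordinates of `y`. -/
def tensVec (e₁ e₂ : ℕ) (x : ι₁ → ℚ) (y : ι₂ → ℚ) : (Fin e₁ → ι₁) × (Fin e₂ → ι₂) → ℚ :=
  fun a => (∏ r, x (a.1 r)) * (∏ r, y (a.2 r))

theorem tensPow_ne_zero {ι : Type} [Fintype ι] (e : ℕ) (x : ι → ℚ) (hx : x ≠ 0) :
    (fun f : Fin e → ι => ∏ r, x (f r)) ≠ 0 := by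
  obtain ⟨i, hi⟩ := Function.ne_iff.mp hx
  refine Function.ne_iff.mpr ⟨fun _ => i, ?_⟩
  simp only [Finset.prod_const, Pi.zero_apply]
  exact pow_ne_zero _ hi

theorem logHeight_tensPow {ι : Type} [Fintype ι] (e : ℕ) (x : ι → ℚ) (hx : x ≠ 0) :
    Height.logHeight (fun f : Fin e → ι => ∏ r, x (f r)) = e * Height.logHeight x := by
  have h := Height.logHeight_fun_prod_eq (K := ℚ) (α := Fin e) (ι := fun _ => ι)
    (x := fun _ => x) (fun _ => hx)
  rw [h, Finset.sum_const, Finset.card_univ, Fintype.card_fin, nsmul_eq_mul]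

/-- The height of the tensor vector. -/
theorem logHeight_tensVec (e₁ e₂ : ℕ) (x : ι₁ → ℚ) (y : ι₂ → ℚ) (hx : x ≠ 0) (hy : y ≠ 0) :
    Height.logHeight (tensVec e₁ e₂ x y)
      = e₁ * Height.logHeight x + e₂ * Height.logHeight y := by
  have h := Height.logHeight_fun_mul_eq (K := ℚ) (tensPow_ne_zero e₁ x hx)
    (tensPow_ne_zero e₂ y hy)
  rw [logHeight_tensPow e₁ x hx, logHeight_tensPow e₂ y hy] at h
  exact h

/-- Evaluation of a polynomial in the two groups of variables as a sum over monomials. -/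
theorem eval_sumElim_eq (p : MvPolynomial (ι₁ ⊕ ι₂) ℚ) (x : ι₁ → ℚ) (y : ι₂ → ℚ) :
    MvPolynomial.eval (Sum.elim x y) p
      = ∑ s ∈ p.support, coeff s p *
          ((∏ i, x i ^ s (Sum.inl i)) * (∏ j, y j ^ s (Sum.inr j))) := by
  rw [MvPolynomial.eval_eq']
  refine Finset.sum_congr rfl fun s _ => ?_
  rw [Fintype.prod_sum_type]
  simp only [Sum.elim_inl, Sum.elim_inr]

/-- **Upper bound** for a bihomogeneous family. -/
theorem bihom_upper {ι' : Type} [Fintype ι'] (e₁ e₂ : ℕ)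
    (Ψ : ι' → MvPolynomial (ι₁ ⊕ ι₂) ℚ) (hΨ : ∀ k, IsBihom e₁ e₂ (Ψ k)) :
    ∃ C : ℝ, ∀ (x : ι₁ → ℚ) (y : ι₂ → ℚ), x ≠ 0 → y ≠ 0 →
      Height.logHeight (fun k => MvPolynomial.eval (Sum.elim x y) (Ψ k))
        ≤ C + e₁ * Height.logHeight x + e₂ * Height.logHeight y := by
  classical
  set S : Finset (ι₁ ⊕ ι₂ →₀ ℕ) := Finset.univ.biUnion (fun k => (Ψ k).support) with hS
  have hSdeg : ∀ s ∈ S, (∑ i : ι₁, s (Sum.inl i)) = e₁ ∧ (∑ j : ι₂, s (Sum.inr j)) = e₂ := by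
    intro s hs
    rw [hS, Finset.mem_biUnion] at hs
    obtain ⟨k, -, hk⟩ := hs
    exact hΨ k s hk
  have hsec : ∀ s : S, ∃ a : (Fin e₁ → ι₁) × (Fin e₂ → ι₂), ∀ (x : ι₁ → ℚ) (y : ι₂ → ℚ),
      tensVec e₁ e₂ x y a
        = (∏ i, x i ^ (s : ι₁ ⊕ ι₂ →₀ ℕ) (Sum.inl i)) *
            (∏ j, y j ^ (s : ι₁ ⊕ ι₂ →₀ ℕ) (Sum.inr j)) := by
    intro s
    obtain ⟨a₁, ha₁⟩ := exists_fin_prod_eq e₁ (fun i => (s : ι₁ ⊕ ι₂ →₀ ℕ) (Sum.inl i))
      (hSdeg s s.2).1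
    obtain ⟨a₂, ha₂⟩ := exists_fin_prod_eq e₂ (fun j => (s : ι₁ ⊕ ι₂ →₀ ℕ) (Sum.inr j))
      (hSdeg s s.2).2
    refine ⟨(a₁, a₂), fun x y => ?_⟩
    rw [tensVec, ha₁ ℚ x, ha₂ ℚ y]
  choose g hg using hsec
  set A : ι' × S → ℚ := fun p => coeff (p.2 : ι₁ ⊕ ι₂ →₀ ℕ) (Ψ p.1) with hA
  refine ⟨Height.totalWeight ℚ * Real.log (Nat.card S) + Height.logHeight A, fun x y hx hy => ?_⟩
  have heval : (fun k => MvPolynomial.eval (Sum.elim x y) (Ψ k))
      = fun k => ∑ s : S, A (k, s) * (tensVec e₁ e₂ x y ∘ g) s := by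
    funext k
    rw [eval_sumElim_eq]
    have hsub : (Ψ k).support ⊆ S := by
      intro s hs
      rw [hS, Finset.mem_biUnion]
      exact ⟨k, Finset.mem_univ _, hs⟩
    rw [Finset.sum_subset hsub (fun s _ hs => by
      rw [MvPolynomial.notMem_support_iff.mp hs, zero_mul])]
    rw [← Finset.sum_coe_sort S]
    refine Finset.sum_congr rfl fun s _ => ?_
    rw [Function.comp_apply, hg s x y]
  rw [heval]
  have h1 := Height.logHeight_linearMap_apply_le (K := ℚ) A (tensVec e₁ e₂ x y ∘ g)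
  have h2 := Height.logHeight_comp_le (K := ℚ) g (tensVec e₁ e₂ x y)
  rw [logHeight_tensVec e₁ e₂ x y hx hy] at h2
  linarith

end upper

/-! ### Bihomogeneous components -/

section bicomp

variable {ι₁ ι₂ : Type} [Fintype ι₁] [Fintype ι₂]

open Classical in
/-- The bihomogeneous component of bidegree `(N₁, N₂)`. -/
def bicomp (N₁ N₂ : ℕ) (G : MvPolynomial (ι₁ ⊕ ι₂) ℚ) : MvPolynomial (ι₁ ⊕ ι₂) ℚ :=
  ∑ s ∈ G.support.filter
      (fun s => (∑ i : ι₁, s (Sum.inl i)) = N₁ ∧ (∑ j : ι₂, s (Sum.inr j)) = N₂),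
    monomial s (coeff s G)

open Classical in
theorem coeff_bicomp (N₁ N₂ : ℕ) (G : MvPolynomial (ι₁ ⊕ ι₂) ℚ) (t : ι₁ ⊕ ι₂ →₀ ℕ) :
    coeff t (bicomp N₁ N₂ G)
      = if (∑ i : ι₁, t (Sum.inl i)) = N₁ ∧ (∑ j : ι₂, t (Sum.inr j)) = N₂ then coeff t G
        else 0 := by
  rw [bicomp, coeff_sum]
  simp only [coeff_monomial]
  rw [Finset.sum_ite_eq']
  by_cases ht : t ∈ G.support
  · simp only [Finset.mem_filter, ht, true_and]
  · have h0 : coeff t G = 0 := MvPolynomial.notMem_support_iff.mp ht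
    simp [ht, h0]

theorem isBihom_bicomp (N₁ N₂ : ℕ) (G : MvPolynomial (ι₁ ⊕ ι₂) ℚ) :
    IsBihom N₁ N₂ (bicomp N₁ N₂ G) := by
  intro s hs
  rw [MvPolynomial.mem_support_iff, coeff_bicomp] at hs
  by_contra hcon
  rw [if_neg hcon] at hs
  exact hs rfl

theorem bicomp_of_isBihom {N₁ N₂ : ℕ} {p : MvPolynomial (ι₁ ⊕ ι₂) ℚ} (hp : IsBihom N₁ N₂ p) :
    bicomp N₁ N₂ p = p := by
  ext t
  rw [coeff_bicomp]
  split_ifs with h
  · rfl
  · by_contra hne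
    exact h (hp t (MvPolynomial.mem_support_iff.mpr (Ne.symm hne)))

theorem bicomp_sum {ι : Type} (N₁ N₂ : ℕ) (u : Finset ι) (F : ι → MvPolynomial (ι₁ ⊕ ι₂) ℚ) :
    bicomp N₁ N₂ (∑ k ∈ u, F k) = ∑ k ∈ u, bicomp N₁ N₂ (F k) := by
  ext t
  rw [coeff_bicomp, coeff_sum, coeff_sum]
  simp only [coeff_bicomp]
  split_ifs with h
  · rfl
  · simp

theorem bicomp_mul (N₁ N₂ d₁ d₂ : ℕ) (G Φ : MvPolynomial (ι₁ ⊕ ι₂) ℚ)
    (hΦ : IsBihom d₁ d₂ Φ) :
    bicomp (N₁ + d₁) (N₂ + d₂) (G * Φ) = bicomp N₁ N₂ G * Φ := by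
  classical
  ext t
  rw [coeff_bicomp, coeff_mul, coeff_mul]
  have key : ∀ p ∈ Finset.HasAntidiagonal.antidiagonal t,
      (if (∑ i : ι₁, t (Sum.inl i)) = N₁ + d₁ ∧ (∑ j : ι₂, t (Sum.inr j)) = N₂ + d₂
        then coeff p.1 G * coeff p.2 Φ else 0)
      = coeff p.1 (bicomp N₁ N₂ G) * coeff p.2 Φ := by
    intro p hp
    rw [Finset.HasAntidiagonal.mem_antidiagonal] at hp
    by_cases h0 : coeff p.2 Φ = 0
    · rw [h0, mul_zero, mul_zero, ite_self]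
    · obtain ⟨hd1, hd2⟩ := hΦ p.2 (MvPolynomial.mem_support_iff.mpr h0)
      have e1 : (∑ i : ι₁, t (Sum.inl i)) = (∑ i : ι₁, p.1 (Sum.inl i)) + d₁ := by
        rw [← hd1, ← Finset.sum_add_distrib, ← hp]
        rfl
      have e2 : (∑ j : ι₂, t (Sum.inr j)) = (∑ j : ι₂, p.1 (Sum.inr j)) + d₂ := by
        rw [← hd2, ← Finset.sum_add_distrib, ← hp]
        rfl
      rw [coeff_bicomp, e1, e2]
      simp only [Nat.add_right_cancel_iff]
      split_ifs <;> simp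
  rw [← Finset.sum_congr rfl key]
  split_ifs with h
  · rfl
  · simp

omit [Fintype ι₁] [Fintype ι₂] in
theorem X_pow_mul_X_pow_eq_monomial (i : ι₁) (j : ι₂) (a b : ℕ) :
    (X (Sum.inl i) ^ a * X (Sum.inr j) ^ b : MvPolynomial (ι₁ ⊕ ι₂) ℚ)
      = monomial (Finsupp.single (Sum.inl i) a + Finsupp.single (Sum.inr j) b) 1 := by
  rw [X_pow_eq_monomial, X_pow_eq_monomial, monomial_mul, one_mul]

theorem isBihom_X_pow_mul_X_pow (i : ι₁) (j : ι₂) (a b : ℕ) :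
    IsBihom a b (X (Sum.inl i) ^ a * X (Sum.inr j) ^ b : MvPolynomial (ι₁ ⊕ ι₂) ℚ) := by
  classical
  intro s hs
  rw [X_pow_mul_X_pow_eq_monomial] at hs
  have hs' := MvPolynomial.support_monomial_subset hs
  rw [Finset.mem_singleton] at hs'
  subst hs'
  constructor
  · simp [Finsupp.single_apply]
  · simp [Finsupp.single_apply]

end bicomp

/-! ### The Nullstellensatz step -/

section lower

variable {ι₁ ι₂ ι₃ : Type} [Fintype ι₁] [Fintype ι₂] [Fintype ι₃]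

/-- Evaluation over `ℚ̄` as a sum over monomials. -/
theorem aeval_sumElim_eq (p : MvPolynomial (ι₁ ⊕ ι₂) ℚ) (x : ι₁ → QQbar) (y : ι₂ → QQbar) :
    MvPolynomial.aeval (Sum.elim x y) p
      = ∑ s ∈ p.support, algebraMap ℚ QQbar (coeff s p) *
          ((∏ i, x i ^ s (Sum.inl i)) * (∏ j, y j ^ s (Sum.inr j))) := by
  rw [MvPolynomial.aeval_def, MvPolynomial.eval₂_eq']
  refine Finset.sum_congr rfl fun s _ => ?_
  rw [Fintype.prod_sum_type]
  simp only [Sum.elim_inl, Sum.elim_inr]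

/-- The value of a bihomogeneous polynomial does not depend on a group of variables in which it
has degree `0`. -/
theorem aeval_congr_of_isBihom {d₁ d₂ : ℕ} {p : MvPolynomial (ι₁ ⊕ ι₂) ℚ}
    (hp : IsBihom d₁ d₂ p) (x x' : ι₁ → QQbar) (y y' : ι₂ → QQbar)
    (hx : x = x' ∨ d₁ = 0) (hy : y = y' ∨ d₂ = 0) :
    MvPolynomial.aeval (Sum.elim x y) p = MvPolynomial.aeval (Sum.elim x' y') p := by
  rw [aeval_sumElim_eq, aeval_sumElim_eq]
  refine Finset.sum_congr rfl fun s hs => ?_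
  obtain ⟨h1, h2⟩ := hp s hs
  have e1 : (∏ i, x i ^ s (Sum.inl i)) = ∏ i, x' i ^ s (Sum.inl i) := by
    rcases hx with h | h0
    · rw [h]
    · have hz : ∀ i : ι₁, s (Sum.inl i) = 0 := fun i =>
        (Finset.sum_eq_zero_iff.mp (h1.trans h0)) i (Finset.mem_univ i)
      simp [hz]
  have e2 : (∏ j, y j ^ s (Sum.inr j)) = ∏ j, y' j ^ s (Sum.inr j) := by
    rcases hy with h | h0
    · rw [h]
    · have hz : ∀ j : ι₂, s (Sum.inr j) = 0 := fun j =>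
        (Finset.sum_eq_zero_iff.mp (h2.trans h0)) j (Finset.mem_univ j)
      simp [hz]
  rw [e1, e2]

omit [Fintype ι₃] in
/-- **Nullstellensatz step**: the pure-power monomials of bidegree `(d₁, d₂)` lie in the radical
of the ideal generated by a base-point-free bihomogeneous system. -/
theorem X_pow_mul_X_pow_mem_radical (d₁ d₂ : ℕ) (Φ : ι₃ → MvPolynomial (ι₁ ⊕ ι₂) ℚ)
    (hΦ : ∀ k, IsBihom d₁ d₂ (Φ k))
    (hbpf : ∀ (x : ι₁ → QQbar) (y : ι₂ → QQbar), x ≠ 0 → y ≠ 0 →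
      ∃ k, MvPolynomial.aeval (Sum.elim x y) (Φ k) ≠ 0) (i : ι₁) (j : ι₂) :
    (X (Sum.inl i) ^ d₁ * X (Sum.inr j) ^ d₂ : MvPolynomial (ι₁ ⊕ ι₂) ℚ)
      ∈ (Ideal.span (Set.range Φ)).radical := by
  classical
  rw [← MvPolynomial.vanishingIdeal_zeroLocus_eq_radical (K := QQbar),
    MvPolynomial.mem_vanishingIdeal_iff]
  intro v hv
  rw [MvPolynomial.mem_zeroLocus_iff] at hv
  by_contra hne
  simp only [map_mul, map_pow, aeval_X] at hne
  have hne1 : v (Sum.inl i) ^ d₁ ≠ 0 := left_ne_zero_of_mul hne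
  have hne2 : v (Sum.inr j) ^ d₂ ≠ 0 := right_ne_zero_of_mul hne
  have hv' : v = Sum.elim (fun i => v (Sum.inl i)) (fun j => v (Sum.inr j)) := by
    funext a
    cases a <;> rfl
  have hx : ∃ x' : ι₁ → QQbar, x' ≠ 0 ∧ ((fun i => v (Sum.inl i)) = x' ∨ d₁ = 0) := by
    by_cases h : (fun i => v (Sum.inl i)) = 0
    · refine ⟨fun _ => 1, fun h1 => one_ne_zero (congrFun h1 i), Or.inr ?_⟩
      by_contra hd
      apply hne1
      have h0 : v (Sum.inl i) = 0 := congrFun h i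
      rw [h0, zero_pow hd]
    · exact ⟨_, h, Or.inl rfl⟩
  have hy : ∃ y' : ι₂ → QQbar, y' ≠ 0 ∧ ((fun j => v (Sum.inr j)) = y' ∨ d₂ = 0) := by
    by_cases h : (fun j => v (Sum.inr j)) = 0
    · refine ⟨fun _ => 1, fun h1 => one_ne_zero (congrFun h1 j), Or.inr ?_⟩
      by_contra hd
      apply hne2
      have h0 : v (Sum.inr j) = 0 := congrFun h j
      rw [h0, zero_pow hd]
    · exact ⟨_, h, Or.inl rfl⟩
  obtain ⟨x', hx', hxx⟩ := hx
  obtain ⟨y', hy', hyy⟩ := hy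
  obtain ⟨k, hk⟩ := hbpf x' y' hx' hy'
  apply hk
  rw [← aeval_congr_of_isBihom (hΦ k) _ x' _ y' hxx hyy, ← hv']
  exact hv (Φ k) (Ideal.subset_span ⟨k, rfl⟩)

/-- Bihomogeneous cofactors: if a bihomogeneous `m` of bidegree `(N₁ + d₁, N₂ + d₂)` lies in the
ideal generated by a bihomogeneous system of bidegree `(d₁, d₂)`, the cofactors can be chosen
bihomogeneous of bidegree `(N₁, N₂)`. -/
theorem exists_bihom_cofactors (N₁ N₂ d₁ d₂ : ℕ) (Φ : ι₃ → MvPolynomial (ι₁ ⊕ ι₂) ℚ)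
    (hΦ : ∀ k, IsBihom d₁ d₂ (Φ k)) (m : MvPolynomial (ι₁ ⊕ ι₂) ℚ)
    (hm : IsBihom (N₁ + d₁) (N₂ + d₂) m) (hmem : m ∈ Ideal.span (Set.range Φ)) :
    ∃ G : ι₃ → MvPolynomial (ι₁ ⊕ ι₂) ℚ, (∀ k, IsBihom N₁ N₂ (G k)) ∧
      m = ∑ k, G k * Φ k := by
  obtain ⟨c, hc⟩ := (Ideal.mem_span_range_iff_exists_fun).mp hmem
  refine ⟨fun k => bicomp N₁ N₂ (c k), fun k => isBihom_bicomp _ _ _, ?_⟩
  have h1 := congrArg (bicomp (N₁ + d₁) (N₂ + d₂)) hc
  rw [bicomp_of_isBihom hm, bicomp_sum] at h1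
  rw [← h1]
  exact Finset.sum_congr rfl fun k _ => bicomp_mul N₁ N₂ d₁ d₂ (c k) (Φ k) (hΦ k)

end lower

/-! ### The theorem -/

/-- **Lower bound** for a base-point-free bihomogeneous system. -/
theorem bihom_lower {ι₁ ι₂ ι₃ : Type} [Fintype ι₁] [Fintype ι₂] [Fintype ι₃] (d₁ d₂ : ℕ)
    (Φ : ι₃ → MvPolynomial (ι₁ ⊕ ι₂) ℚ) (hΦ : ∀ k, IsBihom d₁ d₂ (Φ k))
    (hbpf : ∀ (x : ι₁ → QQbar) (y : ι₂ → QQbar), x ≠ 0 → y ≠ 0 →
      ∃ k, MvPolynomial.aeval (Sum.elim x y) (Φ k) ≠ 0) :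
    ∃ C : ℝ, ∀ (x : ι₁ → ℚ) (y : ι₂ → ℚ), x ≠ 0 → y ≠ 0 →
      d₁ * Height.logHeight x + d₂ * Height.logHeight y
        ≤ C + Height.logHeight (fun k => MvPolynomial.eval (Sum.elim x y) (Φ k)) := by
  classical
  -- exponents from the Nullstellensatz
  have hrad : ∀ p : ι₁ × ι₂, ∃ n : ℕ,
      (X (Sum.inl p.1) ^ d₁ * X (Sum.inr p.2) ^ d₂ : MvPolynomial (ι₁ ⊕ ι₂) ℚ) ^ n
        ∈ Ideal.span (Set.range Φ) := fun p =>
    X_pow_mul_X_pow_mem_radical d₁ d₂ Φ hΦ hbpf p.1 p.2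
  choose nf hnf using hrad
  set M : ℕ := ∑ p, nf p with hM
  have hle : ∀ p : ι₁ × ι₂, nf p ≤ M + 1 := fun p =>
    (Finset.single_le_sum (fun q _ => Nat.zero_le (nf q)) (Finset.mem_univ p)).trans
      (Nat.le_succ _)
  have hmem : ∀ p : ι₁ × ι₂,
      (X (Sum.inl p.1) ^ (M * d₁ + d₁) * X (Sum.inr p.2) ^ (M * d₂ + d₂) :
        MvPolynomial (ι₁ ⊕ ι₂) ℚ) ∈ Ideal.span (Set.range Φ) := by
    intro p
    have h1 := (Ideal.span (Set.range Φ)).pow_mem_of_pow_mem (hnf p) (hle p)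
    have e1 : M * d₁ + d₁ = d₁ * (M + 1) := by ring
    have e2 : M * d₂ + d₂ = d₂ * (M + 1) := by ring
    rw [e1, e2, pow_mul, pow_mul, ← mul_pow]
    exact h1
  -- bihomogeneous cofactors
  have hG : ∀ p : ι₁ × ι₂, ∃ G : ι₃ → MvPolynomial (ι₁ ⊕ ι₂) ℚ,
      (∀ k, IsBihom (M * d₁) (M * d₂) (G k)) ∧
      (X (Sum.inl p.1) ^ (M * d₁ + d₁) * X (Sum.inr p.2) ^ (M * d₂ + d₂) :
        MvPolynomial (ι₁ ⊕ ι₂) ℚ) = ∑ k, G k * Φ k := fun p =>
    exists_bihom_cofactors (M * d₁) (M * d₂) d₁ d₂ Φ hΦ _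
      (isBihom_X_pow_mul_X_pow p.1 p.2 _ _) (hmem p)
  choose G hGb hGeq using hG
  obtain ⟨C₂, hC₂⟩ := bihom_upper (M * d₁) (M * d₂)
    (fun q : (ι₁ × ι₂) × ι₃ => G q.1 q.2) (fun q => hGb q.1 q.2)
  refine ⟨Height.totalWeight ℚ * Real.log (Nat.card ι₃) + C₂, fun x y hx hy => ?_⟩
  -- the vector of pure powers
  have hxp : x ^ (M * d₁ + d₁) ≠ 0 := by
    obtain ⟨i, hi⟩ := Function.ne_iff.mp hx
    refine Function.ne_iff.mpr ⟨i, ?_⟩
    rw [Pi.pow_apply]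
    exact pow_ne_zero _ hi
  have hyp : y ^ (M * d₂ + d₂) ≠ 0 := by
    obtain ⟨j, hj⟩ := Function.ne_iff.mp hy
    refine Function.ne_iff.mpr ⟨j, ?_⟩
    rw [Pi.pow_apply]
    exact pow_ne_zero _ hj
  have hw := Height.logHeight_fun_mul_eq (K := ℚ) hxp hyp
  rw [Height.logHeight_pow, Height.logHeight_pow] at hw
  have hweq : (fun a : ι₁ × ι₂ => (x ^ (M * d₁ + d₁)) a.1 * (y ^ (M * d₂ + d₂)) a.2)
      = fun a : ι₁ × ι₂ => ∑ k, MvPolynomial.eval (Sum.elim x y) (G a k) *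
          MvPolynomial.eval (Sum.elim x y) (Φ k) := by
    funext a
    have h := congrArg (MvPolynomial.eval (Sum.elim x y)) (hGeq a)
    simp only [map_mul, map_pow, eval_X, Sum.elim_inl, Sum.elim_inr, map_sum] at h
    simpa using h
  rw [hweq] at hw
  have h1 := Height.logHeight_linearMap_apply_le (K := ℚ)
    (fun q : (ι₁ × ι₂) × ι₃ => MvPolynomial.eval (Sum.elim x y) (G q.1 q.2))
    (fun k => MvPolynomial.eval (Sum.elim x y) (Φ k))
  have h2 := hC₂ x y hx hy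
  rw [hw] at h1
  push_cast at h1 h2
  nlinarith [h1, h2]

/-- **BIHOM** (row MW-BIHOM of P-MW). -/
theorem bihom : BihomStatement := by
  intro ι₁ ι₂ ι₃ _ _ _ d₁ d₂ Φ hΦ hbpf
  obtain ⟨C₁, hC₁⟩ := bihom_upper d₁ d₂ Φ hΦ
  obtain ⟨C₂, hC₂⟩ := bihom_lower d₁ d₂ Φ hΦ hbpf
  refine ⟨max C₁ C₂, fun x y hx hy => ?_⟩
  have h1 := hC₁ x y hx hy
  have h2 := hC₂ x y hx hy
  rw [abs_le]
  constructor
  · have := le_max_right C₁ C₂
    linarith
  · have := le_max_left C₁ C₂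
    linarith

end Fermat.Agent.H99.MW
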